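/-
P-S56 (Taylor-Wiles primes), CONTRACT (coordinator helper52): the frozen statement S56 from the two
`SelmerCount` statements (T2) of `S56x/Assembly/TopLevel.lean` (architect C, helper72), with (T1)
discharged by `S56x/Top/PowerSeriesSurj.lean` (helper16).  This is the skeleton of
`Fermat/Agent/S56.lean`:

  `S56.result … := s56_of_selmerCount p hp2 hp𝒪 ρbar … S Smin … hSO hFlat`

with `hSO : SelmerCount p ρbar S (condSO 𝒪 p Smin)`, `hFlat : SelmerCount p ρbar S (condFlat 𝒪 p Smin)`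
owed by the chain (C) Dict ⇒ (CC) CocycleCount ⇐ (B) Greenberg-Wiles + (A) local flat + local counts
+ (D) group theory + (E) Chebotarev (board key `S56_PLAN`).
-/
import Fermat.Agent.S56x.Assembly.TopLevel
import Fermat.Agent.S56x.Top.PowerSeriesSurj

set_option autoImplicit false

open Polynomial IsLocalRing

namespace Fermat.Agent.S56x

variable {𝒪 : Type} [CommRing 𝒪] [IsDomain 𝒪] [IsDiscreteValuationRing 𝒪]
  [IsAdicComplete (maximalIdeal 𝒪) 𝒪] [Finite (ResidueField 𝒪)]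

/-- **(T1)** for every deformation ring (helper16's `PowerSeriesSurj`). -/
theorem tangentToSurj_deformationRingData {ρbar : ResidualGaloisRep (ResidueField 𝒪)}
    {𝒟 : ∀ ⦃A : Type⦄ [CommRing A] [IsLocalRing A] [Algebra 𝒪 A], GaloisRepAdic A → Prop}
    (DQ : GaloisRep.DeformationRingData 𝒪 ρbar 𝒟) (r : ℕ) : TangentToSurj 𝒪 DQ.R r := by
  letI : Algebra 𝒪 (DualNumber (ResidueField 𝒪)) := Fermat.Agent.S53.dualNumberAlgebra 𝒪
  intro hT
  exact Top.exists_mvPowerSeries_surjective_deformationRingData DQ (fun _ => rfl) r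
    (fun s _ => hT s)

/-- One conjunct of S56 from its `SelmerCount` statement. -/
theorem conjunct_of_selmerCount (p : ℕ) (ρbar : ResidualGaloisRep (ResidueField 𝒪))
    (S : Finset ℕ)
    (cond : Finset ℕ → ∀ ⦃A : Type⦄ [CommRing A] [IsLocalRing A] [Algebra 𝒪 A],
      GaloisRepAdic A → Prop)
    (hT2 : SelmerCount p ρbar S cond) :
    ∃ r : ℕ, ∀ n : ℕ, ∃ qv : Fin r → ℕ, Function.Injective qv ∧
      (∀ i, (qv i).Prime ∧ qv i ∉ S ∧ p ^ (n + 1) ∣ qv i - 1) ∧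
      (∀ i, ∀ P : ValuationSubring (AlgebraicClosure ℚ), P.LiesOverPrime (qv i) →
        ∀ φ : AlgebraicClosure ℚ ≃ₐ[ℚ] AlgebraicClosure ℚ, P.IsFrobeniusAt φ (qv i) →
          ∃ α β : ResidueField 𝒪, α ≠ β ∧
            LinearMap.charpoly (ρbar.ρ φ) = (X - C α) * (X - C β)) ∧
      ∀ DQ : GaloisRep.DeformationRingData 𝒪 ρbar (cond (Finset.univ.image qv)),
        ∃ γ : MvPowerSeries (Fin r) 𝒪 →ₐ[𝒪] DQ.R, Function.Surjective γ :=
  conjunct_of_T1_T2 p ρbar S cond (fun _ DQ r => tangentToSurj_deformationRingData DQ r) hT2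

/-- **The frozen statement S56** from the two `SelmerCount` statements. -/
theorem s56_of_selmerCount (p : ℕ) (ρbar : ResidualGaloisRep (ResidueField 𝒪))
    (S Smin : Finset ℕ)
    (hSO : SelmerCount p ρbar S (condSO 𝒪 p Smin))
    (hFlat : SelmerCount p ρbar S (condFlat 𝒪 p Smin)) :
    (∃ r : ℕ, ∀ n : ℕ, ∃ qv : Fin r → ℕ, Function.Injective qv ∧
      (∀ i, (qv i).Prime ∧ qv i ∉ S ∧ p ^ (n + 1) ∣ qv i - 1) ∧
      (∀ i, ∀ P : ValuationSubring (AlgebraicClosure ℚ), P.LiesOverPrime (qv i) →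
        ∀ φ : AlgebraicClosure ℚ ≃ₐ[ℚ] AlgebraicClosure ℚ, P.IsFrobeniusAt φ (qv i) →
          ∃ α β : ResidueField 𝒪, α ≠ β ∧ LinearMap.charpoly (ρbar.ρ φ) = (X - C α) * (X - C β)) ∧
      ∀ DQ : GaloisRep.DeformationRingData 𝒪 ρbar (fun _A _ _ _ ρ =>
          GaloisRep.strictOrdinaryCondition 𝒪 p (Smin ∪ Finset.univ.image qv) ρ ∧
            ∀ q ∈ Smin, q.Prime → q ≠ p → ρ.IsUnipotentOnInertiaAt q),
        ∃ γ : MvPowerSeries (Fin r) 𝒪 →ₐ[𝒪] DQ.R, Function.Surjective γ) ∧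
    (∃ r : ℕ, ∀ n : ℕ, ∃ qv : Fin r → ℕ, Function.Injective qv ∧
      (∀ i, (qv i).Prime ∧ qv i ∉ S ∧ p ^ (n + 1) ∣ qv i - 1) ∧
      (∀ i, ∀ P : ValuationSubring (AlgebraicClosure ℚ), P.LiesOverPrime (qv i) →
        ∀ φ : AlgebraicClosure ℚ ≃ₐ[ℚ] AlgebraicClosure ℚ, P.IsFrobeniusAt φ (qv i) →
          ∃ α β : ResidueField 𝒪, α ≠ β ∧ LinearMap.charpoly (ρbar.ρ φ) = (X - C α) * (X - C β)) ∧
      ∀ DQ : GaloisRep.DeformationRingData 𝒪 ρbar (fun _A _ _ _ ρ =>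
          GaloisRep.flatCondition 𝒪 p (Smin ∪ Finset.univ.image qv) ρ ∧
            ∀ q ∈ Smin, q.Prime → q ≠ p → ρ.IsUnipotentOnInertiaAt q),
        ∃ γ : MvPowerSeries (Fin r) 𝒪 →ₐ[𝒪] DQ.R, Function.Surjective γ) :=
  ⟨conjunct_of_selmerCount p ρbar S (condSO 𝒪 p Smin) hSO,
    conjunct_of_selmerCount p ρbar S (condFlat 𝒪 p Smin) hFlat⟩

end Fermat.Agent.S56x
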